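import Mathlib

/-!
# D-Pet node [PetBound]: bounds, continuity and invariance of `petersson k (f ∣ a) (g ∣ b)`

Pointwise Cauchy–Schwarz is an EQUALITY for the Petersson integrand:
`‖petersson k F G τ‖ ^ 2 = ‖petersson k F F τ‖ * ‖petersson k G G τ‖`.  Together with
`petersson_slash` and Mathlib's global bound `CuspFormClass.petersson_bounded_left` this bounds
`petersson k (f ∣[k] a) (g ∣[k] b)` uniformly on `ℍ` for cusp forms `f g` of an arithmetic level and
ARBITRARY `a b : GL (Fin 2) ℝ`.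
-/

open UpperHalfPlane
open scoped MatrixGroups ComplexConjugate ModularForm Manifold

noncomputable section

namespace Fermat.Agent.FF3.PetBound

/-! ### pointwise identities (functions `ℍ → ℂ`) -/

theorem norm_petersson (k : ℤ) (F G : ℍ → ℂ) (τ : ℍ) :
    ‖petersson k F G τ‖ = ‖F τ‖ * ‖G τ‖ * τ.im ^ k := by
  unfold petersson
  rw [norm_mul, norm_mul, Complex.norm_conj, norm_zpow, Complex.norm_real,
    Real.norm_of_nonneg τ.im_pos.le]

/-- Pointwise Cauchy–Schwarz, with equality. -/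
theorem norm_petersson_sq (k : ℤ) (F G : ℍ → ℂ) (τ : ℍ) :
    ‖petersson k F G τ‖ ^ 2 = ‖petersson k F F τ‖ * ‖petersson k G G τ‖ := by
  simp only [norm_petersson]
  ring

theorem norm_petersson_le_add (k : ℤ) (F G : ℍ → ℂ) (τ : ℍ) :
    ‖petersson k F G τ‖ ≤ (‖petersson k F F τ‖ + ‖petersson k G G τ‖) / 2 := by
  have h := norm_petersson_sq k F G τ
  have h0 := norm_nonneg (petersson k F G τ)
  have h1 := norm_nonneg (petersson k F F τ)
  have h2 := norm_nonneg (petersson k G G τ)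
  nlinarith [sq_nonneg (‖petersson k F F τ‖ - ‖petersson k G G τ‖),
    sq_nonneg (‖petersson k F G τ‖ - (‖petersson k F F τ‖ + ‖petersson k G G τ‖) / 2)]

theorem norm_petersson_le_of_le (k : ℤ) (F G : ℍ → ℂ) (τ : ℍ) {A B : ℝ}
    (hA : ‖petersson k F F τ‖ ≤ A) (hB : ‖petersson k G G τ‖ ≤ B) :
    ‖petersson k F G τ‖ ≤ (A + B) / 2 :=
  (norm_petersson_le_add k F G τ).trans (by linarith)

/-- the norm form of Mathlib's `petersson_slash`. -/
theorem norm_petersson_slash (k : ℤ) (F G : ℍ → ℂ) (a : GL (Fin 2) ℝ) (τ : ℍ) :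
    ‖petersson k (F ∣[k] a) (G ∣[k] a) τ‖ =
      |a.det.val| ^ (k - 2) * ‖petersson k F G (a • τ)‖ := by
  rw [petersson_slash, norm_mul, norm_σ, norm_zpow, Complex.norm_real, Real.norm_eq_abs, abs_abs]

/-- weight `2`: no determinant factor. -/
theorem norm_petersson_two_slash (F G : ℍ → ℂ) (a : GL (Fin 2) ℝ) (τ : ℍ) :
    ‖petersson 2 (F ∣[(2 : ℤ)] a) (G ∣[(2 : ℤ)] a) τ‖ = ‖petersson 2 F G (a • τ)‖ := by
  rw [norm_petersson_slash]
  simp

/-- weight `2`, positive determinant: `petersson 2 (F ∣ a) (G ∣ a) τ = petersson 2 F G (a • τ)`. -/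
theorem petersson_two_slash_of_det_pos (F G : ℍ → ℂ) {a : GL (Fin 2) ℝ} (ha : 0 < a.det.val)
    (τ : ℍ) :
    petersson 2 (F ∣[(2 : ℤ)] a) (G ∣[(2 : ℤ)] a) τ = petersson 2 F G (a • τ) := by
  rw [petersson_slash, UpperHalfPlane.σ, if_pos ha]
  simp

/-! ### invariance -/

/-- If `F` and `G` are slash-invariant under `δ` of determinant one, then `petersson k F G` is
invariant under `τ ↦ δ • τ`. -/
theorem petersson_smul_of_slash_eq (k : ℤ) {F G : ℍ → ℂ} {δ : GL (Fin 2) ℝ}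
    (hdet : δ.det = 1) (hF : F ∣[k] δ = F) (hG : G ∣[k] δ = G) (τ : ℍ) :
    petersson k F G (δ • τ) = petersson k F G τ := by
  have h := petersson_slash k F G δ τ
  rw [hF, hG] at h
  have hpos : (0 : ℝ) < δ.det.val := by rw [hdet]; simp
  rw [h, UpperHalfPlane.σ, if_pos hpos, hdet]
  simp

/-- `F ∣ a` is slash-invariant under `δ` as soon as `F` is invariant under `a δ a⁻¹`. -/
theorem slash_slash_eq_of_conj (k : ℤ) {F : ℍ → ℂ} {a δ : GL (Fin 2) ℝ}
    (hF : F ∣[k] (a * δ * a⁻¹) = F) : (F ∣[k] a) ∣[k] δ = F ∣[k] a := by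
  rw [← SlashAction.slash_mul]
  have : a * δ = (a * δ * a⁻¹) * a := by group
  rw [this, SlashAction.slash_mul, hF]

/-! ### moving a slash from one argument to the other (weight `2`, positive determinant) -/

theorem inv_det_pos {a : GL (Fin 2) ℝ} (ha : 0 < a.det.val) : 0 < (a⁻¹).det.val := by
  have h : (a⁻¹).det.val = (a.det.val)⁻¹ := by
    rw [map_inv, Units.val_inv_eq_inv_val]
  rw [h]
  exact inv_pos.mpr ha

/-- `P(F ∣ a, G)(τ) = P(F, G ∣ a⁻¹)(a • τ)`. -/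
theorem petersson_two_slash_left (F G : ℍ → ℂ) {a : GL (Fin 2) ℝ} (ha : 0 < a.det.val) (τ : ℍ) :
    petersson 2 (F ∣[(2 : ℤ)] a) G τ = petersson 2 F (G ∣[(2 : ℤ)] a⁻¹) (a • τ) := by
  have h := petersson_two_slash_of_det_pos F (G ∣[(2 : ℤ)] a⁻¹) ha τ
  rw [← SlashAction.slash_mul, inv_mul_cancel, SlashAction.slash_one] at h
  exact h

/-- `P(F, G ∣ a)(τ) = P(F ∣ a⁻¹, G)(a • τ)`. -/
theorem petersson_two_slash_right (F G : ℍ → ℂ) {a : GL (Fin 2) ℝ} (ha : 0 < a.det.val) (τ : ℍ) :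
    petersson 2 F (G ∣[(2 : ℤ)] a) τ = petersson 2 (F ∣[(2 : ℤ)] a⁻¹) G (a • τ) := by
  have h := petersson_two_slash_of_det_pos (F ∣[(2 : ℤ)] a⁻¹) G ha τ
  rw [← SlashAction.slash_mul, inv_mul_cancel, SlashAction.slash_one] at h
  exact h

/-- Scalar matrices act trivially in weight `2`. -/
theorem slash_two_scalar (F : ℍ → ℂ) (u : ℝˣ) :
    F ∣[(2 : ℤ)] (Matrix.GeneralLinearGroup.scalar (Fin 2) u) = F := by
  funext τ
  have hdet : ((Matrix.GeneralLinearGroup.scalar (Fin 2) u).det : ℝ) = (u : ℝ) ^ 2 := by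
    simp [sq]
  have hpos : (0 : ℝ) < ((Matrix.GeneralLinearGroup.scalar (Fin 2) u).det : ℝ) := by
    rw [hdet]; exact sq_pos_of_ne_zero u.ne_zero
  rw [ModularForm.slash_apply, UpperHalfPlane.σ, if_pos hpos, hdet, glScalar_smul, denom_scalar]
  have hu : ((u : ℝ) : ℂ) ≠ 0 := by exact_mod_cast u.ne_zero
  simp only [ContinuousAlgEquiv.refl_apply, abs_pow, sq_abs]
  norm_num

/-- In weight `2` the slash by `u • a` (scalar multiple) equals the slash by `a`. -/
theorem slash_two_scalar_mul (F : ℍ → ℂ) (u : ℝˣ) (a : GL (Fin 2) ℝ) :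
    F ∣[(2 : ℤ)] (Matrix.GeneralLinearGroup.scalar (Fin 2) u * a) = F ∣[(2 : ℤ)] a := by
  rw [SlashAction.slash_mul, slash_two_scalar]

theorem slash_two_mul_scalar (F : ℍ → ℂ) (u : ℝˣ) (a : GL (Fin 2) ℝ) :
    F ∣[(2 : ℤ)] (a * Matrix.GeneralLinearGroup.scalar (Fin 2) u) = F ∣[(2 : ℤ)] a := by
  rw [← Matrix.GeneralLinearGroup.scalar_commute, slash_two_scalar_mul]

end Fermat.Agent.FF3.PetBound
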