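import Mathlib
import Fermat.Agent.FF3.PetBound.Basic

/-!
# D-Pet node [PetBound], forms: `petersson k (f ∣ a) (g ∣ b)` for cusp forms

For cusp forms `f g` of weight `k` and arithmetic level `Γ`, and ARBITRARY `a b : GL (Fin 2) ℝ`:
* `exists_bound_petersson_slash_slash`: `∃ C, ∀ τ, ‖petersson k (f ∣[k] a) (g ∣[k] b) τ‖ ≤ C`;
* `continuous_petersson_slash_slash`;
* `petersson_slash_slash_smul`: invariance under `δ ∈ Γ ∩ a⁻¹ Γ a ∩ b⁻¹ Γ b` (for `Γ` of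
  determinant one).
-/

open UpperHalfPlane
open scoped MatrixGroups ComplexConjugate ModularForm Manifold Pointwise

noncomputable section

namespace Fermat.Agent.FF3.PetBound

section general

variable {Γ : Subgroup (GL (Fin 2) ℝ)} {F F' : Type*} [FunLike F ℍ ℂ] [FunLike F' ℍ ℂ] {k : ℤ}

/-- Uniform bound for `petersson k (f ∣ a) (f ∣ a)`. -/
theorem exists_bound_petersson_slash_self [Γ.IsArithmetic] [CuspFormClass F Γ k] (f : F)
    (a : GL (Fin 2) ℝ) :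
    ∃ C, ∀ τ, ‖petersson k (⇑f ∣[k] a) (⇑f ∣[k] a) τ‖ ≤ C := by
  obtain ⟨C, hC⟩ := CuspFormClass.petersson_bounded_left k Γ f f
  refine ⟨|a.det.val| ^ (k - 2) * C, fun τ => ?_⟩
  rw [norm_petersson_slash]
  exact mul_le_mul_of_nonneg_left (hC _) (zpow_nonneg (abs_nonneg _) _)

/-- **[PetBound] (B1)**: uniform bound for `petersson k (f ∣ a) (g ∣ b)`, any `a b`. -/
theorem exists_bound_petersson_slash_slash [Γ.IsArithmetic] [CuspFormClass F Γ k]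
    [CuspFormClass F' Γ k] (f : F) (g : F') (a b : GL (Fin 2) ℝ) :
    ∃ C, ∀ τ, ‖petersson k (⇑f ∣[k] a) (⇑g ∣[k] b) τ‖ ≤ C := by
  obtain ⟨A, hA⟩ := exists_bound_petersson_slash_self (Γ := Γ) (k := k) f a
  obtain ⟨B, hB⟩ := exists_bound_petersson_slash_self (Γ := Γ) (k := k) g b
  exact ⟨(A + B) / 2, fun τ => norm_petersson_le_of_le k _ _ τ (hA τ) (hB τ)⟩

theorem continuous_slash [CuspFormClass F Γ k] (f : F) (a : GL (Fin 2) ℝ) :
    Continuous (⇑f ∣[k] a) :=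
  ((CuspFormClass.holo f).slash k a).continuous

/-- **[PetBound] (B2)**: continuity. -/
theorem continuous_petersson_slash_slash [CuspFormClass F Γ k] [CuspFormClass F' Γ k]
    (f : F) (g : F') (a b : GL (Fin 2) ℝ) :
    Continuous (petersson k (⇑f ∣[k] a) (⇑g ∣[k] b)) :=
  petersson_continuous k (continuous_slash (Γ := Γ) f a) (continuous_slash (Γ := Γ) g b)

/-- `f ∣ a` is invariant under `δ` when `a δ a⁻¹ ∈ Γ`. -/
theorem slash_slash_eq_of_conj_mem [SlashInvariantFormClass F Γ k] (f : F) {a δ : GL (Fin 2) ℝ}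
    (h : a * δ * a⁻¹ ∈ Γ) : (⇑f ∣[k] a) ∣[k] δ = ⇑f ∣[k] a :=
  slash_slash_eq_of_conj k (SlashInvariantFormClass.slash_action_eq f _ h)

/-- **[PetBound] (B3)**, elementary form: invariance under `δ ∈ Γ` with `a δ a⁻¹, b δ b⁻¹ ∈ Γ`. -/
theorem petersson_slash_slash_smul [Γ.HasDetOne] [SlashInvariantFormClass F Γ k]
    [SlashInvariantFormClass F' Γ k] (f : F) (g : F') {a b δ : GL (Fin 2) ℝ} (hδ : δ ∈ Γ)
    (ha : a * δ * a⁻¹ ∈ Γ) (hb : b * δ * b⁻¹ ∈ Γ) (τ : ℍ) :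
    petersson k (⇑f ∣[k] a) (⇑g ∣[k] b) (δ • τ) = petersson k (⇑f ∣[k] a) (⇑g ∣[k] b) τ :=
  petersson_smul_of_slash_eq k (Subgroup.HasDetOne.det_eq hδ)
    (slash_slash_eq_of_conj_mem f ha) (slash_slash_eq_of_conj_mem g hb) τ

theorem mem_conj_inv_smul_iff {a δ : GL (Fin 2) ℝ} :
    δ ∈ (ConjAct.toConjAct a)⁻¹ • Γ ↔ a * δ * a⁻¹ ∈ Γ := by
  rw [Subgroup.mem_pointwise_smul_iff_inv_smul_mem, inv_inv, ConjAct.smul_def]
  simp

/-- **[PetBound] (B3)**, in the literal of the D-Pet owner. -/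
theorem petersson_slash_slash_smul' [Γ.HasDetOne] [SlashInvariantFormClass F Γ k]
    [SlashInvariantFormClass F' Γ k] (f : F) (g : F') {a b δ : GL (Fin 2) ℝ}
    (hδ : δ ∈ Γ ⊓ (ConjAct.toConjAct a)⁻¹ • Γ ⊓ (ConjAct.toConjAct b)⁻¹ • Γ) (τ : ℍ) :
    petersson k (⇑f ∣[k] a) (⇑g ∣[k] b) (δ • τ) = petersson k (⇑f ∣[k] a) (⇑g ∣[k] b) τ :=
  petersson_slash_slash_smul f g hδ.1.1 (mem_conj_inv_smul_iff.mp hδ.1.2)
    (mem_conj_inv_smul_iff.mp hδ.2) τ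

end general

/-! ### the level `Γ₀(N)`, weight `2` literals -/

section Gamma0

variable {N : ℕ} [NeZero N]

theorem exists_bound_petersson_two (f g : CuspForm (CongruenceSubgroup.Gamma0 N) 2)
    (a b : GL (Fin 2) ℝ) :
    ∃ C, ∀ τ, ‖petersson 2 (⇑f ∣[(2 : ℤ)] a) (⇑g ∣[(2 : ℤ)] b) τ‖ ≤ C :=
  exists_bound_petersson_slash_slash (Γ := (CongruenceSubgroup.Gamma0 N : Subgroup SL(2, ℤ)))
    f g a b

omit [NeZero N] in
theorem continuous_petersson_two (f g : CuspForm (CongruenceSubgroup.Gamma0 N) 2)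
    (a b : GL (Fin 2) ℝ) :
    Continuous (petersson 2 (⇑f ∣[(2 : ℤ)] a) (⇑g ∣[(2 : ℤ)] b)) :=
  continuous_petersson_slash_slash (Γ := (CongruenceSubgroup.Gamma0 N : Subgroup SL(2, ℤ)))
    f g a b

omit [NeZero N] in
theorem petersson_two_smul (f g : CuspForm (CongruenceSubgroup.Gamma0 N) 2)
    {a b δ : GL (Fin 2) ℝ}
    (hδ : δ ∈ ((CongruenceSubgroup.Gamma0 N : Subgroup SL(2, ℤ)) : Subgroup (GL (Fin 2) ℝ)) ⊓
      (ConjAct.toConjAct a)⁻¹ •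
        ((CongruenceSubgroup.Gamma0 N : Subgroup SL(2, ℤ)) : Subgroup (GL (Fin 2) ℝ)) ⊓
      (ConjAct.toConjAct b)⁻¹ •
        ((CongruenceSubgroup.Gamma0 N : Subgroup SL(2, ℤ)) : Subgroup (GL (Fin 2) ℝ)))
    (τ : ℍ) :
    petersson 2 (⇑f ∣[(2 : ℤ)] a) (⇑g ∣[(2 : ℤ)] b) (δ • τ) =
      petersson 2 (⇑f ∣[(2 : ℤ)] a) (⇑g ∣[(2 : ℤ)] b) τ :=
  petersson_slash_slash_smul' f g hδ τ

end Gamma0

end Fermat.Agent.FF3.PetBound
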